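/-
S26 package CURVES, leaf L7 = G3 (helper7665): closed points and `K`-points over an
algebraically closed field.

* `g3_exists_section_of_isClosed` : every closed point of a locally of finite type `K`-scheme
  is the image of a section of the structure morphism;
* `g3_isClosed_section_apply` : conversely the image point of a section is closed;
* `g3_exists_isClosed_mem` : a nonempty closed subset contains a closed point;
* `g3_exists_lift_of_surjective` : a surjective `K`-morphism `ν : C ⟶ Γ` lifts `K`-points.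
-/
import Mathlib

set_option autoImplicit false

namespace Fermat.Agent.S26.Curves.H7665
open AlgebraicGeometry CategoryTheory

universe u

variable {K : Type u} [Field K] [IsAlgClosed K]

/-- Every closed point of a locally of finite type scheme over an algebraically closed field `K`
is a `K`-point. -/
theorem g3_exists_section_of_isClosed {X : Scheme.{u}} (f : X ⟶ Spec (.of K))
    [LocallyOfFiniteType f] (x : X) (hx : IsClosed ({x} : Set X)) :
    ∃ s : Spec (.of K) ⟶ X, s ≫ f = 𝟙 _ ∧ ∀ a, s a = x :=
  ⟨pointOfClosedPoint f x hx, pointOfClosedPoint_comp f x hx, pointOfClosedPoint_apply f x hx⟩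

/-- The image of a section of the structure morphism is a closed point. -/
theorem g3_isClosed_section_apply {X : Scheme.{u}} (f : X ⟶ Spec (.of K))
    [LocallyOfFiniteType f] (s : Spec (.of K) ⟶ X) (hs : s ≫ f = 𝟙 _) (a : Spec (.of K)) :
    IsClosed ({s a} : Set X) := by
  have h := (pointEquivClosedPoint f ⟨s, hs⟩).2
  have ha : a = IsLocalRing.closedPoint K := Subsingleton.elim _ _
  rw [ha]
  exact h

/-- Two sections of the structure morphism with the same image point are equal. -/
theorem g3_section_ext {X : Scheme.{u}} (f : X ⟶ Spec (.of K))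
    [LocallyOfFiniteType f] {s t : Spec (.of K) ⟶ X} (hs : s ≫ f = 𝟙 _) (ht : t ≫ f = 𝟙 _)
    (a : Spec (.of K)) (h : s a = t a) : s = t := by
  have ha : a = IsLocalRing.closedPoint K := Subsingleton.elim _ _
  subst ha
  exact ext_of_apply_closedPoint_eq f hs ht h

omit [IsAlgClosed K] in
/-- In a locally of finite type `K`-scheme every nonempty closed subset contains a closed
point. -/
theorem g3_exists_isClosed_mem {X : Scheme.{u}} (f : X ⟶ Spec (.of K))
    [LocallyOfFiniteType f] {Z : Set X} (hZ : IsClosed Z) (hne : Z.Nonempty) :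
    ∃ x ∈ Z, IsClosed ({x} : Set X) := by
  have : JacobsonSpace X := LocallyOfFiniteType.jacobsonSpace f
  have h := JacobsonSpace.closure_inter_closedPoints hZ
  by_contra hcon
  push Not at hcon
  have h0 : Z ∩ closedPoints X = ∅ := by
    ext x
    simp only [Set.mem_inter_iff, Set.mem_empty_iff_false, iff_false, not_and]
    intro hxZ hx
    exact hcon x hxZ hx
  rw [h0, closure_empty] at h
  exact hne.ne_empty h.symm

/-- Every nonempty locally of finite type `K`-scheme has a `K`-point. -/
theorem g3_exists_section_of_nonempty {X : Scheme.{u}} (f : X ⟶ Spec (.of K))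
    [LocallyOfFiniteType f] [Nonempty X] :
    ∃ s : Spec (.of K) ⟶ X, s ≫ f = 𝟙 _ := by
  obtain ⟨x, -, hx⟩ := g3_exists_isClosed_mem f (Z := Set.univ) isClosed_univ Set.univ_nonempty
  obtain ⟨s, hs, -⟩ := g3_exists_section_of_isClosed f x hx
  exact ⟨s, hs⟩

/-- A surjective morphism of locally of finite type `K`-schemes lifts `K`-points:
for every `K`-point `γ` of `Γ` there is a `K`-point `c` of `C` with `c ≫ ν = γ`. -/
theorem g3_exists_lift_of_surjective {C Γ : Scheme.{u}} (fC : C ⟶ Spec (.of K))
    (fΓ : Γ ⟶ Spec (.of K)) [LocallyOfFiniteType fC] [LocallyOfFiniteType fΓ]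
    (ν : C ⟶ Γ) (hν : ν ≫ fΓ = fC) (hsurj : Function.Surjective ν)
    (γ : Spec (.of K) ⟶ Γ) (hγ : γ ≫ fΓ = 𝟙 _) :
    ∃ c : Spec (.of K) ⟶ C, c ≫ fC = 𝟙 _ ∧ c ≫ ν = γ := by
  let pt : Spec (.of K) := IsLocalRing.closedPoint K
  have hy : IsClosed ({γ pt} : Set Γ) := g3_isClosed_section_apply fΓ γ hγ pt
  have hZ : IsClosed (ν ⁻¹' {γ pt}) := hy.preimage ν.continuous
  obtain ⟨x0, hx0⟩ := hsurj (γ pt)
  obtain ⟨x, hxZ, hx⟩ := g3_exists_isClosed_mem fC hZ ⟨x0, hx0⟩
  obtain ⟨c, hc, hcx⟩ := g3_exists_section_of_isClosed fC x hx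
  refine ⟨c, hc, ?_⟩
  have h1 : (c ≫ ν) ≫ fΓ = 𝟙 _ := by rw [Category.assoc, hν, hc]
  refine g3_section_ext fΓ h1 hγ pt ?_
  have h2 : (c ≫ ν) pt = ν (c pt) := by simp
  rw [h2, hcx pt]
  exact hxZ

end Fermat.Agent.S26.Curves.H7665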